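import Fermat.Agent.RED.Congruence.Norm
import Fermat.Agent.JAC.X0.HeckeTrace

/-!
# The congruence for `T_ℓ` on functions of `X₀(N)`

The degree `ℓ + 1` of the degeneracy map, the expansion at the other cusp of level `N ℓ`, and the
reduction of the norm of `T_ℓ f` modulo `ℓ ∤ N`. Used by `RED/Spec/X0`.
-/

set_option autoImplicit false

attribute [local instance 10000] SubalgebraClass.toAlgebra HahnSeries.powerSeriesAlgebra

noncomputable section

open ModularCurve AlgebraicCurve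

namespace Fermat.RED.CongX0

open Fermat.FF Fermat.MC Fermat.JAC Fermat.JAC.X0

variable (N ℓ : ℕ) [NeZero N] [NeZero ℓ]

/-- The degree of the degeneracy map of level `N ℓ` is the ratio of the indices of the levels. -/
theorem dedekindPsi_mul_eq_finrankAlong :
    dedekindPsi (N * ℓ) = finrankAlong Qbar (heckeAlphaBar Qbar N ℓ) * dedekindPsi N := by
  have hpsi : ∀ (M : ℕ) [NeZero M],
      Divisor.degree (zeroDiv Qbar (jL M Qbar)) = (dedekindPsi M : ℤ) := fun M _ => by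
    have : IsFunctionField Qbar (FN M Qbar) := MC.isFunctionField_FN M embC
    rw [degree_zeroDiv (transcendental_jL M), (finrank_FN M embC).1, psiN_eq_dedekindPsi]
  have : IsFunctionField Qbar (FN (N * ℓ) Qbar) := MC.isFunctionField_FN (N * ℓ) embC
  have hj : heckeAlphaBar Qbar N ℓ (jL N Qbar) = jL (N * ℓ) Qbar :=
    Subtype.ext (coe_heckeAlphaBar N ℓ _)
  have hpull : pullDiv (heckeAlphaBar Qbar N ℓ) (zeroDiv Qbar (jL N Qbar)) =
      zeroDiv Qbar (jL (N * ℓ) Qbar) := by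
    ext w
    rw [pullDiv_apply, zeroDiv_apply, zeroDiv_apply, ← hj, ord_below,
      mul_max_of_nonneg _ _ (Int.natCast_nonneg _), mul_zero]
  have h := degree_pullDiv (heckeAlphaBar Qbar N ℓ) (zeroDiv Qbar (jL N Qbar))
  rw [hpull, hpsi, hpsi] at h
  exact_mod_cast h

/-- The degeneracy map of level `N ℓ` has degree `ℓ + 1` for `ℓ ∤ N`. -/
theorem finrankAlong_alpha_bar (hℓ : ℓ.Prime) (hℓN : ¬ ℓ ∣ N) :
    finrankAlong Qbar (heckeAlphaBar Qbar N ℓ) = ℓ + 1 := by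
  have h := dedekindPsi_mul_eq_finrankAlong N ℓ
  rw [dedekindPsi_mul_prime N ℓ hℓ, if_neg hℓN, mul_comm] at h
  exact (Nat.eq_of_mul_eq_mul_right (by rw [← psiN_eq_dedekindPsi, psiN]; exact Nat.card_pos)
    h).symm

/-- An expansion of level `N ℓ` at a second cusp over `∞`: it turns `α f` into `f(q ^ ℓ)` and `β
f` into `f`. -/
theorem exists_otherExpansion (hℓ : ℓ.Prime) (hℓN : ¬ ℓ ∣ N) :
    ∃ e₀ : modularFunctionFieldBar (N * ℓ) →+* LaurentSeries Qbar,
      (∀ f : modularFunctionFieldBar N,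
        e₀ (heckeAlphaBar Qbar N ℓ f) = qExpand Qbar ℓ (f : LaurentSeries Qbar)) ∧
      ∀ f : modularFunctionFieldBar N, e₀ (heckeBetaBar Qbar N ℓ f) = (f : LaurentSeries Qbar) := by
  obtain ⟨g, hg⟩ := exists_swap_map hℓ hℓN
  obtain ⟨W, hW, hWW⟩ := exists_algHom_of_perm (L := Qbar) embC (swapPerm hℓ)
    (swapPerm_swapPerm hℓ hℓN) g hg
  have hWb : ∀ x, W (heckeBetaBar Qbar N ℓ x) = heckeAlphaBar Qbar N ℓ x := by
    refine ringHom_ext_jdL (φ := (W.comp (heckeBetaBar Qbar N ℓ)).toRingHom)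
      (ψ := (heckeAlphaBar Qbar N ℓ).toRingHom) (fun c => ?_) (fun d => ?_)
    · exact (AlgHom.commutes _ c).trans (AlgHom.commutes _ c).symm
    · change W (heckeBetaBar Qbar N ℓ (jdL Qbar d)) = heckeAlphaBar Qbar N ℓ (jdL Qbar d)
      rw [beta_jdL, hW, alpha_jdL]
      refine congrArg (jdL Qbar) (Subtype.ext ?_)
      rw [swapPerm, dif_pos (show ℓ ∣ ((idxBeta N ℓ d : DivIdx (N * ℓ)) : ℕ) from
        dvd_mul_left ℓ (d : ℕ))]
      exact Nat.mul_div_cancel _ hℓ.pos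
  refine ⟨(FN (N * ℓ) Qbar).val.toRingHom.comp W.toRingHom, fun f => ?_, fun f => ?_⟩
  · change ((W (heckeAlphaBar Qbar N ℓ f) : FN (N * ℓ) Qbar) : LaurentSeries Qbar) = _
    rw [← hWb f, hWW, coe_heckeBetaBar]
  · change ((W (heckeBetaBar Qbar N ℓ f) : FN (N * ℓ) Qbar) : LaurentSeries Qbar) = _
    rw [hWb f, coe_heckeAlphaBar]

variable {ℓ} (A : ValuationSubring Qbar) {k : Type*} [Field k] {π : A →+* k}

/-- The norm of `T_ℓ` reduces to `f̄ (q ^ ℓ) * f̄^{(ℓ)}`. -/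
theorem exists_reduction_normAlong (hℓ : ℓ.Prime) (hℓN : ¬ ℓ ∣ N) [CharP k ℓ]
    (f : modularFunctionFieldBar N) (y : LaurentSeries A)
    (hy : (f : LaurentSeries Qbar) = coeffMap A.subtype y) :
    haveI : Fact ℓ.Prime := ⟨hℓ⟩
    ∃ y' : LaurentSeries A,
      ((normAlong (heckeAlphaBar Qbar N ℓ) (heckeBetaBar Qbar N ℓ f) : modularFunctionFieldBar N) :
          LaurentSeries Qbar) = coeffMap A.subtype y' ∧
        coeffMap π y' = qExpand k ℓ (coeffMap π y) * coeffMap (frobenius k ℓ) (coeffMap π y) := by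
  have : Fact ℓ.Prime := ⟨hℓ⟩
  have : IsFunctionField Qbar (FN (N * ℓ) Qbar) := MC.isFunctionField_FN (N * ℓ) embC
  obtain ⟨e₀, hα₀, hβ₀⟩ := exists_otherExpansion N ℓ hℓ hℓN
  obtain ⟨ζ, hζ⟩ := exists_isPrimitiveRoot_unit Qbar ℓ (Nat.cast_ne_zero.mpr hℓ.ne_zero)
  have hζ' : IsPrimitiveRoot (ζ : Qbar) ℓ := IsPrimitiveRoot.coe_units_iff.mpr hζ
  refine exists_reduction_of_norm (yd := y) hζ' ?_
  rw [← hy]
  exact qExpand_normAlong_eq (heckeAlphaBar Qbar N ℓ) (heckeBetaBar Qbar N ℓ)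
    (modularFunctionFieldBar N).val.toRingHom (modularFunctionFieldBar (N * ℓ)).val.toRingHom e₀ id
    (coe_heckeAlphaBar N ℓ) (coe_heckeBetaBar N ℓ) hα₀ hβ₀ hζ' hℓ.one_lt
    (finrankAlong_alpha_bar N ℓ hℓ hℓN) (y := jL N Qbar)
    (by
      change (coeffEmb Qbar jq).coeff (-1 : ℤ) ≠ 0
      rw [coeffEmb_coeff, coeff_jq_neg_one, map_one]
      exact one_ne_zero) f

end Fermat.RED.CongX0
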