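import Fermat.Agent.RED.Congruence.Frobenius
import Fermat.Agent.JAC.PicMaps

/-!
# The expansion of a Hecke norm and its reduction

For a correspondence with the expansions of `T_ℓ`, the norm of a function is a product over the
branches, and its reduction in characteristic `ℓ` is the Kronecker congruence shape.
-/

set_option autoImplicit false

noncomputable section

open ModularCurve AlgebraicCurve

namespace Fermat.RED

variable {L : Type*} [Field L] [CharZero L]
variable {F F' : Type*} [Field F] [Field F'] [Algebra L F] [Algebra L F'] [IsAlgClosed L]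
  [FF.IsFunctionField L F] [FF.IsFunctionField L F']

omit [IsAlgClosed L] in
/-- A full family of embeddings over `b` computes the norm. -/
theorem normAlong_eq_prod (φ : F →ₐ[L] F') {C : Type*} [Field C] (b : F →+* C) {I : Type*}
    [Fintype I] (σ : I → (F' →+* C)) (hσ : ∀ i x, σ i (φ x) = b x) (hinj : Function.Injective σ)
    (hcard : Fintype.card I = finrankAlong L φ) (z : F') :
    b (JAC.normAlong φ z) = ∏ i, σ i z := by
  classical
  let Ω := AlgebraicClosure C
  let := algebraAlong φ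
  have := isScalarTower_along φ
  have : Module.Finite F F' := FF.finiteAlong φ
  let : Algebra F Ω := ((algebraMap C Ω).comp b).toAlgebra
  have : CharZero F := charZero_of_injective_algebraMap (algebraMap L F).injective
  let e : I → (F' →ₐ[F] Ω) := fun i =>
    { (algebraMap C Ω).comp (σ i) with
      commutes' := fun c => congrArg (algebraMap C Ω) (hσ i c) }
  have he : Function.Injective e := fun i j h => hinj <| RingHom.ext fun x =>
    (algebraMap C Ω).injective (DFunLike.congr_fun h x)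
  have hbij : Function.Bijective e := by
    rw [Fintype.bijective_iff_injective_and_card]
    refine ⟨he, ?_⟩
    rw [AlgHom.card F F' Ω, hcard]
    rfl
  refine (algebraMap C Ω).injective ?_
  rw [map_prod]
  have h := Algebra.norm_eq_prod_embeddings F Ω z
  rw [← hbij.prod_comp] at h
  exact h

variable {ℓ : ℕ} [NeZero ℓ]

omit [IsAlgClosed L] in
/-- The norm of `β f` along `α`, at `q ^ ℓ`, for maps of degree `ℓ + 1` with the expansions of
`T_ℓ`: `f(q ^ (ℓ ^ 2))` times the product of the twists of `d f` by the `ℓ`-th roots of unity. -/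
theorem qExpand_normAlong_eq {C : Type*} [Field C] (α β : F →ₐ[L] F') (ι : F →+* LaurentSeries C)
    (ι' : F' →+* LaurentSeries C) (e₀ : F' →+* LaurentSeries C) (d : F → F)
    (hα : ∀ f, ι' (α f) = ι f) (hβ : ∀ f, ι' (β f) = qExpand C ℓ (ι f))
    (hα₀ : ∀ f, e₀ (α f) = qExpand C ℓ (ι f)) (hβ₀ : ∀ f, e₀ (β f) = ι (d f))
    {ζ : Cˣ} (hζ : IsPrimitiveRoot (ζ : C) ℓ) (hℓ : 1 < ℓ)
    (hcard : finrankAlong L α = ℓ + 1) {y : F} (hy : (ι (d y)).coeff (-1) ≠ 0) (f : F) :
    qExpand C ℓ (ι (JAC.normAlong α (β f))) =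
      qExpand C ℓ (qExpand C ℓ (ι f)) * ∏ i : Fin ℓ, twist (ζ ^ (i : ℕ)) (ι (d f)) := by
  let σ : Option (Fin ℓ) → (F' →+* LaurentSeries C) := fun o =>
    o.elim ((qExpand C ℓ).comp ι') fun i => (twist (ζ ^ (i : ℕ))).comp e₀
  have hσ : ∀ o x, σ o (α x) = (qExpand C ℓ).comp ι x := by
    rintro (_ | i) x
    · change qExpand C ℓ (ι' (α x)) = _
      rw [hα]; rfl
    · change twist (ζ ^ (i : ℕ)) (e₀ (α x)) = qExpand C ℓ (ι x)
      rw [hα₀, twist_qExpand, show (ζ ^ (i : ℕ)) ^ ℓ = 1 from Units.ext (by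
        rw [← pow_mul, mul_comm, pow_mul, Units.val_pow_eq_pow_val, Units.val_pow_eq_pow_val,
          hζ.pow_eq_one, one_pow, Units.val_one]), twist_one_apply]
  have hσy : ∀ o, (σ o (β y)).coeff (-1) =
      o.elim 0 fun i => ((ζ : C) ^ (i : ℕ))⁻¹ * (ι (d y)).coeff (-1) := by
    rintro (_ | i)
    · change (qExpand C ℓ (ι' (β y))).coeff (-1) = 0
      refine qExpand_coeff_of_not_dvd ℓ _ fun h => ?_
      have := Int.le_of_dvd one_pos (Int.dvd_neg.mp h)
      omega
    · change (twist (ζ ^ (i : ℕ)) (e₀ (β y))).coeff (-1) = _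
      rw [hβ₀, twist_coeff, zpow_neg, zpow_one, Units.val_inv_eq_inv_val,
        Units.val_pow_eq_pow_val]
      rfl
  -- the `ℓ + 1` embeddings differ at the coefficient of `q⁻¹` of `β y`
  have hinj : Function.Injective σ := fun o o' h => by
    have h1 := congrArg (fun g : F' →+* LaurentSeries C => (g (β y)).coeff (-1)) h
    simp only [hσy] at h1
    rcases o with _ | i <;> rcases o' with _ | j
    · rfl
    · exact absurd h1.symm (mul_ne_zero (inv_ne_zero (pow_ne_zero _ ζ.ne_zero)) hy)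
    · exact absurd h1 (mul_ne_zero (inv_ne_zero (pow_ne_zero _ ζ.ne_zero)) hy)
    · exact congrArg some (Fin.ext (hζ.pow_inj i.2 j.2 (inv_injective (mul_right_cancel₀ hy h1))))
  have h := normAlong_eq_prod α ((qExpand C ℓ).comp ι) σ hσ hinj
    (by rw [Fintype.card_option, Fintype.card_fin, hcard]) (β f)
  rw [RingHom.comp_apply] at h
  rw [h, Fintype.prod_option]
  change qExpand C ℓ (ι' (β f)) * _ = _
  rw [hβ]
  refine congrArg _ (Finset.prod_congr rfl fun i _ => ?_)
  change twist (ζ ^ (i : ℕ)) (e₀ (β f)) = _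
  rw [hβ₀]

variable {A : ValuationSubring L} {k : Type*} [Field k] {π : A →+* k}

omit [CharZero L] [IsAlgClosed L] in
/-- A series with the norm shape has integral coefficients, and in characteristic `ℓ` reduces to
`ȳ(q ^ ℓ) * Frob(ȳd)`. -/
theorem exists_reduction_of_norm [hℓ : Fact ℓ.Prime] [CharP k ℓ] {ζ : Lˣ}
    (hζ : IsPrimitiveRoot (ζ : L) ℓ) {z : LaurentSeries L} {y yd : LaurentSeries A}
    (hz : qExpand L ℓ z = qExpand L ℓ (qExpand L ℓ (coeffMap A.subtype y)) *
      ∏ i : Fin ℓ, twist (ζ ^ (i : ℕ)) (coeffMap A.subtype yd)) :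
    ∃ y' : LaurentSeries A, z = coeffMap A.subtype y' ∧
      coeffMap π y' = qExpand k ℓ (coeffMap π y) * coeffMap (frobenius k ℓ) (coeffMap π yd) := by
  have hζA : ∀ m : ℕ, ((ζ : L) ^ m) ∈ A := fun m => pow_mem (by
    refine (A.mem_or_inv_mem _).elim id fun h => ?_
    have h1 : (ζ : L) = ((ζ : L)⁻¹) ^ (ℓ - 1) := by
      rw [inv_pow]
      refine eq_inv_of_mul_eq_one_left ?_
      rw [← pow_succ', Nat.sub_add_cancel (NeZero.one_le (n := ℓ)), hζ.pow_eq_one]
    rw [h1]
    exact pow_mem h _) m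
  let u : A := ⟨_, hζA 1⟩
  have hu : u ^ ℓ = 1 := Subtype.ext (by
    change ((ζ : L) ^ 1) ^ ℓ = 1
    rw [pow_one, hζ.pow_eq_one])
  let uu : Aˣ := Units.ofPowEqOne u ℓ hu (NeZero.ne ℓ)
  have hmap : ∀ i : ℕ, Units.map (A.subtype : A →* L) (uu ^ i) = ζ ^ i := fun i => by
    rw [map_pow]
    congr 1
    exact Units.ext (pow_one _)
  set w : LaurentSeries A := qExpand A ℓ (qExpand A ℓ y) * ∏ i : Fin ℓ, twist (uu ^ (i : ℕ)) yd
  have hw : coeffMap A.subtype w = qExpand L ℓ z := by
    rw [hz]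
    simp only [w, map_mul, map_prod, ModularCurve.coeffMap_qExpand, coeffMap_twist]
    exact congrArg _ (Finset.prod_congr rfl fun i _ => by rw [hmap])
  have hint : ∀ n, z.coeff n ∈ A := fun n => by
    rw [← qExpand_coeff_mul ℓ z n, ← hw, coeffMap_coeff]
    exact SetLike.coe_mem _
  obtain ⟨y', hy'⟩ := Model.mem_intSeries_iff.mpr hint
  have hy'w : qExpand A ℓ y' = w := Model.coeffMap_subtype_injective A
    (by rw [ModularCurve.coeffMap_qExpand, hy', hw])
  refine ⟨y', hy'.symm, (qExpand k ℓ).injective ?_⟩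
  -- the roots of unity reduce to `1`
  have hπu : Units.map (π : A →* k) uu = 1 := Units.ext (by
    change π u = 1
    refine sub_eq_zero.mp (pow_eq_zero_iff (n := ℓ) (NeZero.ne ℓ) |>.mp ?_)
    rw [sub_pow_char, ← map_pow, hu, map_one, one_pow, sub_self])
  rw [← ModularCurve.coeffMap_qExpand, hy'w, map_mul, map_mul, ModularCurve.coeffMap_qExpand,
    ModularCurve.coeffMap_qExpand, map_prod]
  congr 1
  rw [Finset.prod_eq_pow_card (b := coeffMap π yd) fun i _ => by
    rw [coeffMap_twist, map_pow, hπu, one_pow, twist_one_apply], Finset.card_univ, Fintype.card_fin,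
    laurent_pow_char ℓ (coeffMap π yd)]

end Fermat.RED
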