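import Fermat.Agent.RED.FullField
import Fermat.Agent.RED.Reduction.Hom
import Mathlib.RingTheory.PowerSeries.Expand

/-!
# Frobenius on Laurent series in characteristic `p`

A `p`-th power of a series is the Frobenius of its coefficients at `q^p`, and an automorphism of
the constants gives a semilinear automorphism of a field of series, in particular of the modular
one.
-/

set_option autoImplicit false

noncomputable section

open ModularCurve AlgebraicCurve

namespace Fermat.RED

section Frobenius

variable {R : Type*} [CommRing R] (p : ℕ) [Fact p.Prime] [CharP R p]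

/-- In characteristic `p`, the `p`-th power of a power series is the Frobenius of its expansion
in `q ^ p`. -/
theorem powerSeries_pow_char (f : PowerSeries R) :
    f ^ p = (PowerSeries.map (frobenius R p)) (PowerSeries.expand p (NeZero.ne p) f) :=
  (MvPowerSeries.map_frobenius_expand p (NeZero.ne p)).symm

/-- In characteristic `p`, a `p`-th power is the Frobenius of the coefficients in `q ^ p`. -/
theorem laurent_pow_char (x : LaurentSeries R) :
    x ^ p = qExpand R p (coeffMap (frobenius R p) x) := by
  conv_rhs => rw [← LaurentSeries.single_order_mul_powerSeriesPart x]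
  conv_lhs => rw [← LaurentSeries.single_order_mul_powerSeriesPart x]
  rw [mul_pow, map_mul, map_mul, coeffMap_single, qExpand_single, map_one (frobenius R p),
    HahnSeries.single_pow, one_pow, nsmul_eq_mul]
  congr 1
  change (HahnSeries.ofPowerSeries ℤ R x.powerSeriesPart) ^ p = _
  rw [← map_pow, powerSeries_pow_char]
  ext n
  change _ = (qExpand R p (coeffMap (frobenius R p)
    (HahnSeries.ofPowerSeries ℤ R x.powerSeriesPart))).coeff n
  rw [coeffMap_ofPowerSeries]
  rcases lt_or_ge n 0 with hn | hn
  · rw [ofPowerSeries_coeff_of_neg _ hn]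
    by_cases hd : (p : ℤ) ∣ n
    · obtain ⟨m, rfl⟩ := hd
      rw [qExpand_coeff_mul, ofPowerSeries_coeff_of_neg]
      by_contra hm
      exact absurd hn (not_lt.mpr (mul_nonneg (by positivity) (not_lt.mp hm)))
    · rw [qExpand_coeff_of_not_dvd p _ hd]
  lift n to ℕ using hn
  rw [HahnSeries.ofPowerSeries_apply_coeff, PowerSeries.coeff_map, PowerSeries.coeff_expand]
  by_cases hd : p ∣ n
  · obtain ⟨m, rfl⟩ := hd
    rw [if_pos (dvd_mul_right p m), Nat.mul_div_cancel_left _ (NeZero.pos p), Nat.cast_mul,
      qExpand_coeff_mul, HahnSeries.ofPowerSeries_apply_coeff, PowerSeries.coeff_map]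
  · rw [if_neg hd, map_zero, qExpand_coeff_of_not_dvd p _ (by exact_mod_cast hd)]

end Frobenius

section CoeffAut

variable {k : Type*} [Field k] (T : IntermediateField k (LaurentSeries k)) (τ : k ≃+* k)
variable (h : ∀ x ∈ T, coeffMap (τ : k →+* k) x ∈ T)
variable (h' : ∀ x ∈ T, coeffMap (τ.symm : k →+* k) x ∈ T)

/-- An automorphism of the constants preserving `T`, acting on coefficients. -/
def coeffAut : SemilinearAut k T :=
  ⟨({ toFun := fun x => ⟨coeffMap (τ : k →+* k) x, h _ x.2⟩
      invFun := fun x => ⟨coeffMap (τ.symm : k →+* k) x, h' _ x.2⟩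
      left_inv := fun x => Subtype.ext <| by
        change coeffMap (τ.symm : k →+* k) (coeffMap (τ : k →+* k) (x : LaurentSeries k)) = _
        rw [coeffMap_coeffMap, coeffMap_congr (g := RingHom.id k)
          (RingHom.ext fun a => τ.symm_apply_apply a) (x : LaurentSeries k), coeffMap_id]
      right_inv := fun x => Subtype.ext <| by
        change coeffMap (τ : k →+* k) (coeffMap (τ.symm : k →+* k) (x : LaurentSeries k)) = _
        rw [coeffMap_coeffMap, coeffMap_congr (g := RingHom.id k)
          (RingHom.ext fun a => τ.apply_symm_apply a) (x : LaurentSeries k), coeffMap_id]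
      map_mul' := fun x y => Subtype.ext (map_mul (coeffMap (τ : k →+* k)) _ _)
      map_add' := fun x y => Subtype.ext (map_add (coeffMap (τ : k →+* k)) _ _) }, τ),
    fun a => Subtype.ext (coeffMap_algebraMap (τ : k →+* k) a)⟩

/-- `coeffAut` acts on expansions by `τ` on coefficients. -/
theorem coe_coeffAut_smul (x : T) :
    ((coeffAut T τ h h' • x : T) : LaurentSeries k) = coeffMap (τ : k →+* k) x := rfl

end CoeffAut

/-- The automorphism of the level-`N` function field given by an automorphism of the constants. -/
def coeffAutFull {k : Type*} [Field k] (τ : k ≃+* k) (N : ℕ) :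
    SemilinearAut k (modularFunctionFieldFullC k N) :=
  coeffAut _ τ (fun _ => coeffMap_mem_full _) fun _ => coeffMap_mem_full _

/-- If `g` is Frobenius on coefficients, the series of `(g⁻¹ z) ^ p * g w` is `z(q ^ p)` times
the Frobenius conjugate of `w`. -/
theorem coe_frobenius_norm {k : Type*} [Field k] {T : IntermediateField k (LaurentSeries k)}
    {p : ℕ} [Fact p.Prime] [CharP k p] (g : SemilinearAut k T)
    (hg : ∀ z : T, ((g • z : T) : LaurentSeries k) = coeffMap (frobenius k p) z) (z w : T) :
    ((((g⁻¹ • z) ^ p * g • w) : T) : LaurentSeries k) =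
      qExpand k p (z : LaurentSeries k) * coeffMap (frobenius k p) (w : LaurentSeries k) := by
  rw [MulMemClass.coe_mul, SubmonoidClass.coe_pow, laurent_pow_char p, ← hg, ← hg,
    smul_inv_smul]

end Fermat.RED
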